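import Fermat.Agent.S24.B.Laurent
import Fermat.Agent.GAL.E.HeckeBasic
import Fermat.Agent.GAL.E.Bound
import Fermat.Agent.GAL.E.HeckeRed

/-!
# S44, block F, node FHecke (B): `T_ℓ x` is `A`-integral, formula for its reduction
(task 2371, helper181)
-/

set_option autoImplicit false

noncomputable section

namespace Fermat.Agent.S44.F.Hecke

open ModularCurve AlgebraicCurve Fermat.Agent.S24 Fermat.Agent.S24.B Fermat.Agent.GAL

/-- the twist `∑ aₙ uⁿ Xⁿ` over a commutative ring. -/
def Red.twR {R : Type*} [CommRing R] (u : Rˣ) (x : LaurentSeries R) : LaurentSeries R where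
  coeff n := ((u ^ n : Rˣ) : R) * x.coeff n
  isPWO_support' := x.isPWO_support.mono (by
    intro n hn
    simp only [Function.mem_support, ne_eq] at hn
    rw [HahnSeries.mem_support]
    intro h0
    exact hn (by rw [h0, mul_zero]))

theorem Red.coeffMap_twR {R S : Type*} [CommRing R] [Field S] (f : R →+* S) (u : Rˣ)
    (x : LaurentSeries R) :
    coeffMap f (Red.twR u x) = twist (Units.map (f : R →* S) u) (coeffMap f x) := by
  ext n
  rw [twist_coeff, coeffMap_coeff, coeffMap_coeff]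
  show f (((u ^ n : Rˣ) : R) * x.coeff n) = _
  rw [map_mul, ← map_zpow]
  rfl

/-- the sum of the `n`-th powers of the `ℓ`-th roots of unity. -/
theorem Red.sum_zpow {K : Type*} [Field K] {ℓ : ℕ} {ζ : Kˣ} (hζ : IsPrimitiveRoot ζ ℓ) (n : ℤ) :
    ∑ b ∈ Finset.range ℓ, (((ζ ^ b) ^ n : Kˣ) : K) = if (ℓ : ℤ) ∣ n then (ℓ : K) else 0 := by
  have e : ∀ b : ℕ, (((ζ ^ b) ^ n : Kˣ) : K) = ((ζ ^ n : Kˣ) : K) ^ b := by
    intro b
    rw [← Units.val_pow_eq_pow_val, ← zpow_natCast, ← zpow_natCast, ← zpow_mul, ← zpow_mul,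
      mul_comm]
  simp only [e]
  split_ifs with h
  · rw [(hζ.zpow_eq_one_iff_dvd n).mpr h]
    simp
  · have h1 : ζ ^ n ≠ 1 := fun h' => h ((hζ.zpow_eq_one_iff_dvd n).mp h')
    have h2 : ((ζ ^ n : Kˣ) : K) - 1 ≠ 0 := by
      intro h'
      apply h1
      exact Units.ext (sub_eq_zero.mp h')
    have h3 : ((ζ ^ n : Kˣ) : K) ^ ℓ = 1 := by
      rw [← Units.val_pow_eq_pow_val, ← zpow_natCast, ← zpow_mul, mul_comm, zpow_mul, zpow_natCast,
        hζ.pow_eq_one, one_zpow, Units.val_one]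
    have h4 := geom_sum_mul ((ζ ^ n : Kˣ) : K) ℓ
    rw [h3, sub_self] at h4
    exact (mul_eq_zero.mp h4).resolve_right h2

/-- (B) integrality and reduction of `T_ℓ x` at a place `A` (any residue characteristic) -/
theorem exists_T_red (A : ValuationSubring Kbar) (ℓ : ℕ) [NeZero ℓ] :
    ∃ ζb : (IsLocalRing.ResidueField A)ˣ,
      (∀ n : ℤ, ∑ b ∈ Finset.range ℓ,
        (((ζb ^ b) ^ n : (IsLocalRing.ResidueField A)ˣ) : IsLocalRing.ResidueField A) =
          if (ℓ : ℤ) ∣ n then (ℓ : IsLocalRing.ResidueField A) else 0) ∧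
      ∀ (N : ℕ) (H : E.HeckeOp N ℓ) (x : LaurentSeries A)
        (hx : E.incl A x ∈ modularFunctionFieldBar N),
        ∃ t : LaurentSeries A,
          E.incl A t = ((H.T ⟨E.incl A x, hx⟩ : FN N) : LaurentSeries Kbar) ∧
          qExpand _ ℓ (E.red A t) = qExpand _ (ℓ * ℓ) (E.red A x) *
            ∏ b ∈ Finset.range ℓ, twist (ζb ^ b) (E.red A x) := by
  have hprim := isPrimitiveRoot_zetaK ℓ
  -- `ζ` is a unit of `A`
  have hv : A.valuation (zetaK ℓ : Kbar) = 1 := by
    have h := congrArg (fun z : Kbarˣ => A.valuation (z : Kbar)) hprim.pow_eq_one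
    simp only [Units.val_pow_eq_pow_val, map_pow, Units.val_one, map_one] at h
    exact (pow_eq_one_iff.mp h).resolve_right (NeZero.ne ℓ)
  have hmem : (zetaK ℓ : Kbar) ∈ A := (A.valuation_le_one_iff _).mp hv.le
  have hmem' : ((zetaK ℓ)⁻¹ : Kbarˣ).1 ∈ A := by
    rw [← A.valuation_le_one_iff, Units.val_inv_eq_inv_val, map_inv₀, hv, inv_one]
  set ζA : Aˣ := ⟨⟨_, hmem⟩, ⟨_, hmem'⟩, Subtype.ext (by simp), Subtype.ext (by simp)⟩ with hζA
  have hζ : Units.map (A.subtype : A →* Kbar) ζA = zetaK ℓ := Units.ext rfl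
  set ζb : (IsLocalRing.ResidueField A)ˣ :=
    Units.map (IsLocalRing.residue A : A →* IsLocalRing.ResidueField A) ζA with hζb
  refine ⟨ζb, fun n => ?_, fun N H x hx => ?_⟩
  · -- the sum identity
    have hA : ∑ b ∈ Finset.range ℓ, (((ζA ^ b) ^ n : Aˣ) : A) = if (ℓ : ℤ) ∣ n then (ℓ : A) else 0 := by
      apply A.subtype_injective
      rw [map_sum]
      have := Red.sum_zpow hprim n
      rw [← hζ] at this
      simp only [← map_pow, ← map_zpow] at this
      rw [apply_ite A.subtype, map_natCast, map_zero]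
      exact this
    have h2 := congrArg (IsLocalRing.residue A) hA
    rw [map_sum, apply_ite (IsLocalRing.residue A), map_natCast, map_zero] at h2
    rw [← h2, hζb]
    simp only [← map_pow, ← map_zpow]
    rfl
  · set y : LaurentSeries Kbar := ((H.T ⟨E.incl A x, hx⟩ : FN N) : LaurentSeries Kbar) with hy
    have hq : qExpand Kbar ℓ y = qExpand Kbar (ℓ * ℓ) (E.incl A x) *
        ∏ b ∈ Finset.range ℓ, twist (zetaK ℓ ^ b) (E.incl A x) := H.qExpand_T ⟨E.incl A x, hx⟩
    set P : LaurentSeries A := ∏ b ∈ Finset.range ℓ, Red.twR (ζA ^ b) x with hPdef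
    have hP1 : E.incl A P = ∏ b ∈ Finset.range ℓ, twist (zetaK ℓ ^ b) (E.incl A x) := by
      rw [hPdef, map_prod]
      refine Finset.prod_congr rfl fun b _ => ?_
      rw [Red.coeffMap_twR, map_pow]
      rw [show Units.map ((A.subtype : A →+* Kbar) : A →* Kbar) ζA = zetaK ℓ from hζ]
    have hP2 : E.red A P = ∏ b ∈ Finset.range ℓ, twist (ζb ^ b) (E.red A x) := by
      rw [hPdef, map_prod]
      refine Finset.prod_congr rfl fun b _ => ?_
      rw [Red.coeffMap_twR, map_pow]
    rw [← hP1] at hq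
    -- `P` is supported on the multiples of `ℓ`
    have hsupp : ∀ k : ℤ, ¬ (ℓ : ℤ) ∣ k → P.coeff k = 0 := by
      intro k hk
      rcases eq_or_ne (E.incl A x) 0 with h0 | h0
      · have hP0 : E.incl A P = 0 := by
          rw [hP1, h0]
          refine Finset.prod_eq_zero (Finset.mem_range.2 (NeZero.pos ℓ)) (map_zero _)
        have : P = 0 := E.incl_injective A (by rw [hP0, map_zero])
        rw [this, HahnSeries.coeff_zero]
      · have hne : qExpand Kbar (ℓ * ℓ) (E.incl A x) ≠ 0 := fun h =>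
          h0 (qExpand_injective (ℓ * ℓ) (by rw [h, map_zero]))
        have h1 : E.incl A P = qExpand Kbar ℓ (y / qExpand Kbar ℓ (E.incl A x)) := by
          rw [map_div₀, qExpand_qExpand, hq, mul_div_cancel_left₀ _ hne]
        have h2 : (E.incl A P).coeff k = 0 := by
          rw [h1]
          exact qExpand_coeff_of_not_dvd ℓ _ hk
        rw [E.coeff_incl] at h2
        exact_mod_cast h2
    obtain ⟨V, hV⟩ := E.exists_qExpand_eq ℓ P hsupp
    refine ⟨qExpand A ℓ x * V, ?_, ?_⟩
    · apply qExpand_injective (R := Kbar) ℓ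
      rw [hq, map_mul, map_mul, ← E.coeffMap_qExpand_comm, ← E.coeffMap_qExpand_comm, hV,
        qExpand_qExpand, E.coeffMap_qExpand_comm]
    · rw [map_mul, map_mul, ← E.coeffMap_qExpand_comm, ← E.coeffMap_qExpand_comm, hV,
        qExpand_qExpand, E.coeffMap_qExpand_comm, hP2]

end Fermat.Agent.S44.F.Hecke

end
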