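import Fermat.Agent.S44.F.Theta
import Fermat.Agent.S24.B.Laurent

/-!
# S44, block F, node FHecke, A1-A5 (helper246): `theta` and `dl` commute with `q ↦ q^m` and twists
-/

set_option autoImplicit false

noncomputable section

namespace Fermat.Agent.S44.F.Hecke

open ModularCurve AlgebraicCurve Fermat.Agent.S24 Fermat.Agent.S24.B

section Formal

variable {k : Type*} [Field k]

/-- (A1) -/
theorem theta_qExpand (m : ℕ) [NeZero m] (f : LaurentSeries k) :
    theta k (qExpand k m f) = (m : LaurentSeries k) * qExpand k m (theta k f) := by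
  have hm : (m : LaurentSeries k) = HahnSeries.C (m : k) := by rw [map_natCast]
  ext n
  rw [hm, HahnSeries.C_mul_eq_smul, HahnSeries.coeff_smul, theta_coeff, smul_eq_mul]
  by_cases hn : (m : ℤ) ∣ n
  · obtain ⟨j, rfl⟩ := hn
    rw [qExpand_coeff_mul, qExpand_coeff_mul, theta_coeff]
    push_cast
    ring
  · rw [qExpand_coeff_of_not_dvd m _ hn, qExpand_coeff_of_not_dvd m _ hn, mul_zero, mul_zero]

/-- (A2) -/
theorem theta_twist (ζ : kˣ) (f : LaurentSeries k) :
    theta k (twist ζ f) = twist ζ (theta k f) := by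
  ext n
  rw [theta_coeff, twist_coeff, twist_coeff, theta_coeff, mul_left_comm]

/-- (A3) -/
theorem dl_qExpand (m : ℕ) [NeZero m] (f : LaurentSeries k) :
    dl (qExpand k m f) = (m : LaurentSeries k) * qExpand k m (dl f) := by
  unfold dl
  rw [map_div₀, theta_qExpand, mul_div_assoc]

/-- (A4) -/
theorem dl_twist (ζ : kˣ) (f : LaurentSeries k) : dl (twist ζ f) = twist ζ (dl f) := by
  unfold dl
  rw [map_div₀, theta_twist]

/-- (A5) -/
theorem dl_prod {ι : Type*} (s : Finset ι) (f : ι → LaurentSeries k) (hf : ∀ i ∈ s, f i ≠ 0) :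
    dl (∏ i ∈ s, f i) = ∑ i ∈ s, dl (f i) := by
  classical
  induction s using Finset.induction_on with
  | empty => simp
  | insert a s ha ih =>
    rw [Finset.prod_insert ha, Finset.sum_insert ha,
      dl_mul (hf a (Finset.mem_insert_self a s))
        (Finset.prod_ne_zero_iff.2 fun i hi => hf i (Finset.mem_insert_of_mem hi)),
      ih fun i hi => hf i (Finset.mem_insert_of_mem hi)]

end Formal

end Fermat.Agent.S44.F.Hecke

end
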