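import Fermat.Agent.S44.F.Hecke.Formal

/-!
# S44, block F, node FHecke (A6): the formal Hecke computation for the logarithmic derivative
-/

set_option autoImplicit false

noncomputable section

namespace Fermat.Agent.S44.F.Hecke

open ModularCurve AlgebraicCurve Fermat.Agent.S24 Fermat.Agent.S24.B

section Formal

variable {k : Type*} [Field k]

theorem formalMain_coeff_natCast_mul (m : ℕ) (g : LaurentSeries k) (n : ℤ) :
    ((m : LaurentSeries k) * g).coeff n = (m : k) * g.coeff n := by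
  have h : (m : LaurentSeries k) = HahnSeries.C (m : k) := (map_natCast _ m).symm
  rw [h, HahnSeries.C_mul_eq_smul, HahnSeries.coeff_smul, smul_eq_mul]

theorem formalMain_coeff_qExpand_sq (ℓ : ℕ) [NeZero ℓ] (g : LaurentSeries k) (n : ℤ) :
    (qExpand k (ℓ * ℓ) g).coeff (ℓ * n) = if (ℓ : ℤ) ∣ n then g.coeff (n / ℓ) else 0 := by
  have hℓ : (ℓ : ℤ) ≠ 0 := by exact_mod_cast NeZero.ne ℓ
  split_ifs with hn
  · obtain ⟨m, rfl⟩ := hn
    rw [Int.mul_ediv_cancel_left _ hℓ, ← mul_assoc, ← Nat.cast_mul, qExpand_coeff_mul]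
  · refine qExpand_coeff_of_not_dvd _ _ fun h => hn ?_
    rw [Nat.cast_mul] at h
    exact (mul_dvd_mul_iff_left hℓ).1 h

/-- (A6) the formal computation -/
theorem coeff_dl_of_hecke (ℓ : ℕ) [NeZero ℓ] (hℓ : (ℓ : k) ≠ 0) (ζ : kˣ)
    (hζ : ∀ n : ℤ, ∑ b ∈ Finset.range ℓ, (((ζ ^ b) ^ n : kˣ) : k) =
      if (ℓ : ℤ) ∣ n then (ℓ : k) else 0)
    {f t : LaurentSeries k} (hf : f ≠ 0)
    (h : qExpand k ℓ t = qExpand k (ℓ * ℓ) f * ∏ b ∈ Finset.range ℓ, twist (ζ ^ b) f) (n : ℤ) :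
    (dl t).coeff n = (dl f).coeff (ℓ * n) +
      (ℓ : k) * (if (ℓ : ℤ) ∣ n then (dl f).coeff (n / ℓ) else 0) := by
  have hℓℓ : qExpand k (ℓ * ℓ) f ≠ 0 := fun h0 =>
    hf (qExpand_injective (R := k) (ℓ * ℓ) (by rw [h0, map_zero]))
  have htw : ∀ b ∈ Finset.range ℓ, twist (ζ ^ b) f ≠ 0 := fun b _ h0 =>
    hf ((twist_eq_zero_iff _ _).1 h0)
  have h1 := congrArg dl h
  rw [dl_qExpand, dl_mul hℓℓ (Finset.prod_ne_zero_iff.2 htw), dl_qExpand, dl_prod _ _ htw] at h1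
  have h2 := congrArg (fun g : LaurentSeries k => g.coeff (ℓ * n)) h1
  simp only [HahnSeries.coeff_add, formalMain_coeff_natCast_mul, qExpand_coeff_mul,
    formalMain_coeff_qExpand_sq, HahnSeries.coeff_sum, dl_twist, twist_coeff] at h2
  rw [← Finset.sum_mul, hζ, if_pos (dvd_mul_right _ _)] at h2
  apply mul_left_cancel₀ hℓ
  rw [h2]
  push_cast
  ring

end Formal

end Fermat.Agent.S44.F.Hecke

end
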