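import Fermat.Agent.GAL.E.Bound

/-!
# S44, block F, node FHecke (C): Gauss lemma for constants  (node owner helper51, proof helper294)

If `c F = G` with `F, G ∈ A((q))` both nonzero modulo the maximal ideal of `A`, then `c` is a unit
of `A`, and `c̄ F̄ = Ḡ`.
-/

set_option autoImplicit false

noncomputable section

namespace Fermat.Agent.S44.F.Hecke

open ModularCurve AlgebraicCurve Fermat.Agent.S24 Fermat.Agent.GAL

/-- (C) Gauss lemma for constants -/
theorem exists_unit_of_C_mul (A : ValuationSubring Kbar) (c : Kbar) (F G : LaurentSeries A)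
    (hF : E.red A F ≠ 0) (hG : E.red A G ≠ 0)
    (h : HahnSeries.C c * E.incl A F = E.incl A G) :
    ∃ cb : IsLocalRing.ResidueField A, cb ≠ 0 ∧ HahnSeries.C cb * E.red A F = E.red A G := by
  -- coefficientwise form of `h`
  have hcoeff : ∀ k : ℤ, c * (F.coeff k : Kbar) = (G.coeff k : Kbar) := by
    intro k
    have := congrArg (fun z => HahnSeries.coeff z k) h
    simpa only [HahnSeries.C_mul_eq_smul, HahnSeries.coeff_smul, smul_eq_mul, E.coeff_incl]
      using this
  -- a coefficient of `F` which is a unit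
  obtain ⟨k0, hk0⟩ : ∃ k0 : ℤ, IsLocalRing.residue A (F.coeff k0) ≠ 0 := by
    by_contra hcon
    refine hF ?_
    ext k
    rw [E.coeff_red, HahnSeries.coeff_zero]
    by_contra hk
    exact hcon ⟨k, hk⟩
  have hu : IsUnit (F.coeff k0) := by
    by_contra hnu
    exact hk0 ((IsLocalRing.residue_eq_zero_iff _).2 ((IsLocalRing.mem_maximalIdeal _).2 hnu))
  obtain ⟨u, hu⟩ := hu
  -- `c ∈ A`
  have hc : c = ((G.coeff k0 * (u⁻¹ : Aˣ) : A) : Kbar) := by
    have h1 : ((F.coeff k0 * (u⁻¹ : Aˣ) : A) : Kbar) = 1 := by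
      rw [← hu, Units.mul_inv]
      rfl
    have h2 := hcoeff k0
    push_cast at h1 ⊢
    rw [← h2, mul_assoc, h1, mul_one]
  set cA : A := G.coeff k0 * (u⁻¹ : Aˣ) with hcA
  have hcoeffA : ∀ k : ℤ, cA * F.coeff k = G.coeff k := by
    intro k
    apply Subtype.ext
    have := hcoeff k
    rw [hc] at this
    exact this
  have hred : HahnSeries.C (IsLocalRing.residue A cA) * E.red A F = E.red A G := by
    ext k
    rw [HahnSeries.C_mul_eq_smul, HahnSeries.coeff_smul, smul_eq_mul, E.coeff_red, E.coeff_red,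
      ← map_mul, hcoeffA]
  refine ⟨IsLocalRing.residue A cA, ?_, hred⟩
  intro h0
  rw [h0, map_zero, zero_mul] at hred
  exact hG hred.symm

end Fermat.Agent.S44.F.Hecke

end
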