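import Fermat.Agent.S44.F.Hecke.FormalMain
import Fermat.Agent.S44.F.Hecke.Red
import Fermat.Agent.S44.F.Hecke.Gauss
import Fermat.Agent.S44.F.Top
import Fermat.Agent.GAL.E.Scaling

/-!
# S44, block F: `FHecke` (owner: helper51)

`T_ℓ u = u^a w^p` implies that the logarithmic derivative of the reduction of `u` is an eigenvector
of the formal weight two Hecke operator `T_ℓ` with eigenvalue `a`.
Leaves: `Formal` (helper246), `FormalMain` (helper125), `Red` (helper181), `Gauss` (helper294).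
-/

set_option autoImplicit false

noncomputable section

namespace Fermat.Agent.S44.F

open ModularCurve AlgebraicCurve Fermat.Agent.S24 Fermat.Agent.S24.B Fermat.Agent.GAL

namespace Hecke

theorem red_T_ne_zero {k : Type*} [Field k] (ℓ : ℕ) [NeZero ℓ] (ζ : kˣ)
    {f t : LaurentSeries k} (hf : f ≠ 0)
    (h : qExpand k ℓ t = qExpand k (ℓ * ℓ) f * ∏ b ∈ Finset.range ℓ, twist (ζ ^ b) f) : t ≠ 0 := by
  rintro rfl
  rw [map_zero] at h
  have h1 : qExpand k (ℓ * ℓ) f ≠ 0 := fun h0 =>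
    hf (qExpand_injective (ℓ * ℓ) (by rw [h0, map_zero]))
  have h2 : ∏ b ∈ Finset.range ℓ, twist (ζ ^ b) f ≠ 0 :=
    Finset.prod_ne_zero_iff.mpr fun b _ => fun h0 => hf ((twist_eq_zero_iff _ _).mp h0)
  exact mul_ne_zero h1 h2 h.symm

theorem alg_identity {F : Type*} [Field F] {u w X Y X' Y' TX TY Tu c1 cc cc' : F} {a p : ℕ}
    (huY : u * Y = cc * X) (hwY : w * Y' = cc' * X') (hTuY : Tu * TY = c1 * TX)
    (hT : Tu = u ^ a * w ^ p) :
    c1 * (TX * Y ^ a * Y' ^ p) = (cc ^ a * cc' ^ p) * (X ^ a * X' ^ p * TY) := by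
  calc c1 * (TX * Y ^ a * Y' ^ p) = (Tu * TY) * Y ^ a * Y' ^ p := by rw [hTuY]; ring
    _ = (u * Y) ^ a * (w * Y') ^ p * TY := by rw [hT]; ring
    _ = _ := by rw [huY, hwY]; ring

theorem C_ne_zero' {R : Type*} [Field R] {c : R} (hc : c ≠ 0) :
    (HahnSeries.C c : LaurentSeries R) ≠ 0 :=
  (map_ne_zero_iff _ HahnSeries.C_injective).mpr hc

/-- the identity of functions -/
theorem fn_identity {N ℓ : ℕ} [NeZero ℓ] (H : E.HeckeOp N ℓ) {u w X Y X' Y' : FN N} {c c' : Kbar}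
    {a p : ℕ} (hY0 : Y ≠ 0) (hY'0 : Y' ≠ 0)
    (hu : u = algebraMap Kbar (FN N) c * (X / Y)) (hw : w = algebraMap Kbar (FN N) c' * (X' / Y'))
    (hT : H.T u = u ^ a * w ^ p) :
    algebraMap Kbar (FN N) (c ^ (ℓ + 1)) * (H.T X * Y ^ a * Y' ^ p) =
      algebraMap Kbar (FN N) (c ^ a * c' ^ p) * (X ^ a * X' ^ p * H.T Y) := by
  have huY : u * Y = algebraMap Kbar (FN N) c * X := by
    rw [hu, mul_assoc, div_mul_cancel₀ _ hY0]
  have hwY : w * Y' = algebraMap Kbar (FN N) c' * X' := by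
    rw [hw, mul_assoc, div_mul_cancel₀ _ hY'0]
  have hTuY : H.T u * H.T Y = algebraMap Kbar (FN N) (c ^ (ℓ + 1)) * H.T X := by
    rw [← map_mul, huY, map_mul, H.T_algebraMap]
  have e : algebraMap Kbar (FN N) (c ^ a * c' ^ p) =
      algebraMap Kbar (FN N) c ^ a * algebraMap Kbar (FN N) c' ^ p := by
    rw [map_mul, map_pow, map_pow]
  rw [e]
  exact alg_identity huY hwY hTuY hT

/-- the identity of series -/
theorem series_identity {N : ℕ} {TX TY X Y X' Y' : FN N} {c1 c2 : Kbar} {a p : ℕ} (hc2 : c2 ≠ 0)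
    (h : algebraMap Kbar (FN N) c1 * (TX * Y ^ a * Y' ^ p) =
      algebraMap Kbar (FN N) c2 * (X ^ a * X' ^ p * TY)) :
    HahnSeries.C (c1 / c2) * ((TX : LaurentSeries Kbar) * (Y : LaurentSeries Kbar) ^ a *
      (Y' : LaurentSeries Kbar) ^ p) =
      (X : LaurentSeries Kbar) ^ a * (X' : LaurentSeries Kbar) ^ p * (TY : LaurentSeries Kbar) := by
  have h1 : HahnSeries.C c1 * ((TX : LaurentSeries Kbar) * (Y : LaurentSeries Kbar) ^ a *
      (Y' : LaurentSeries Kbar) ^ p) = HahnSeries.C c2 *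
      ((X : LaurentSeries Kbar) ^ a * (X' : LaurentSeries Kbar) ^ p * (TY : LaurentSeries Kbar)) := by
    have := congrArg (fun z : FN N => (z : LaurentSeries Kbar)) h
    rw [← E.HeckeBasic.coe_algebraMap (N := N) c1, ← E.HeckeBasic.coe_algebraMap (N := N) c2]
    exact this
  rw [map_div₀, div_mul_eq_mul_div, div_eq_iff (C_ne_zero' hc2), h1, mul_comm]

/-- logarithmic derivatives -/
theorem dl_identity {k : Type*} [Field k] (p : ℕ) [CharP k p] {cb : k} (hcb : cb ≠ 0)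
    {tx ty x y x' y' : LaurentSeries k} (htx : tx ≠ 0) (hty : ty ≠ 0) (hx : x ≠ 0) (hy : y ≠ 0)
    (hx' : x' ≠ 0) (hy' : y' ≠ 0) {a : ℕ}
    (h : HahnSeries.C cb * (tx * y ^ a * y' ^ p) = x ^ a * x' ^ p * ty) :
    dl tx + (a : LaurentSeries k) * dl y = (a : LaurentSeries k) * dl x + dl ty := by
  have h1 := congrArg dl h
  rw [dl_mul (C_ne_zero' hcb) (mul_ne_zero (mul_ne_zero htx (pow_ne_zero _ hy)) (pow_ne_zero _ hy')),
    dl_C, zero_add, dl_mul (mul_ne_zero htx (pow_ne_zero _ hy)) (pow_ne_zero _ hy'),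
    dl_mul htx (pow_ne_zero _ hy), dl_pow hy, dl_pow_char p, add_zero,
    dl_mul (mul_ne_zero (pow_ne_zero _ hx) (pow_ne_zero _ hx')) hty,
    dl_mul (pow_ne_zero _ hx) (pow_ne_zero _ hx'), dl_pow hx, dl_pow_char p, add_zero] at h1
  exact h1

theorem coeff_natCast_mul {k : Type*} [Field k] (a : ℕ) (g : LaurentSeries k) (n : ℤ) :
    ((a : LaurentSeries k) * g).coeff n = (a : k) * g.coeff n := by
  have hnat : ((a : ℕ) : LaurentSeries k) = HahnSeries.C ((a : ℕ) : k) := by rw [map_natCast]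
  rw [hnat, HahnSeries.C_mul_eq_smul, HahnSeries.coeff_smul, smul_eq_mul]

/-- the formal part of the assembly -/
theorem coeff_identity {k : Type*} [Field k] (p : ℕ) [CharP k p] (ℓ : ℕ) [NeZero ℓ]
    (hℓ : (ℓ : k) ≠ 0) (ζ : kˣ)
    (hζ : ∀ n : ℤ, ∑ b ∈ Finset.range ℓ, (((ζ ^ b) ^ n : kˣ) : k) =
      if (ℓ : ℤ) ∣ n then (ℓ : k) else 0)
    {cb : k} (hcb : cb ≠ 0) {tx ty x y x' y' ubar : LaurentSeries k} (hx : x ≠ 0) (hy : y ≠ 0)
    (hx' : x' ≠ 0) (hy' : y' ≠ 0) {a : ℕ}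
    (htx : qExpand k ℓ tx = qExpand k (ℓ * ℓ) x * ∏ b ∈ Finset.range ℓ, twist (ζ ^ b) x)
    (hty : qExpand k ℓ ty = qExpand k (ℓ * ℓ) y * ∏ b ∈ Finset.range ℓ, twist (ζ ^ b) y)
    (h : HahnSeries.C cb * (tx * y ^ a * y' ^ p) = x ^ a * x' ^ p * ty)
    (hub : ubar * y = x) (n : ℤ) :
    (a : k) * (dl ubar).coeff n = (dl ubar).coeff (ℓ * n) +
      (ℓ : k) * (if (ℓ : ℤ) ∣ n then (dl ubar).coeff (n / ℓ) else 0) := by
  have htx0 : tx ≠ 0 := red_T_ne_zero ℓ ζ hx htx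
  have hty0 : ty ≠ 0 := red_T_ne_zero ℓ ζ hy hty
  have hdl := dl_identity p hcb htx0 hty0 hx hy hx' hy' h
  have hub0 : ubar ≠ 0 := by
    rintro rfl
    rw [zero_mul] at hub
    exact hx hub.symm
  have hdu : dl ubar = dl x - dl y := by
    rw [← hub, dl_mul hub0 hy, add_sub_cancel_right]
  have hkey : dl tx - dl ty = (a : LaurentSeries k) * dl ubar := by
    rw [hdu]
    linear_combination hdl
  have h1 := coeff_dl_of_hecke ℓ hℓ ζ hζ hx htx n
  have h2 := coeff_dl_of_hecke ℓ hℓ ζ hζ hy hty n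
  have h3 := congrArg (fun s : LaurentSeries k => s.coeff n) hkey
  simp only [HahnSeries.coeff_sub, coeff_natCast_mul] at h3
  rw [← h3, h1, h2, hdu]
  simp only [HahnSeries.coeff_sub]
  split_ifs <;> ring

theorem isEig_of_coeff {k : Type*} [Field k] (ℓ : ℕ) (c : k) (g : LaurentSeries k)
    (h : ∀ n : ℤ, c * g.coeff n = g.coeff (ℓ * n) +
      (ℓ : k) * (if (ℓ : ℤ) ∣ n then g.coeff (n / ℓ) else 0))
    (φ : PowerSeries k) (hφ : (φ : LaurentSeries k) = g) : IsEig ℓ c φ := by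
  intro n
  have hco : ∀ m : ℕ, PowerSeries.coeff m φ = g.coeff (m : ℤ) := by
    intro m
    rw [← hφ]
    simp
  have h1 := h (n : ℤ)
  simp only [hco]
  rw [h1]
  have e1 : ((ℓ * n : ℕ) : ℤ) = (ℓ : ℤ) * n := by push_cast; rfl
  rw [e1]
  by_cases hd : ℓ ∣ n
  · rw [if_pos hd, if_pos (Int.natCast_dvd_natCast.mpr hd)]
    have e2 : ((n / ℓ : ℕ) : ℤ) = (n : ℤ) / ℓ := by push_cast; rfl
    rw [e2]
  · rw [if_neg hd, if_neg (fun h => hd (Int.natCast_dvd_natCast.mp h))]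

end Hecke

theorem fHecke : FHecke := by
  intro p N ℓ _ _ hp hℓ hℓp A hA H u w a hu hw hT ubar hred φ hφ
  have : CharP (kA A) p := E.charP_residueField A p hp hA
  obtain ⟨c, x, y, hx, hy, hc, hrx, hry, hu', hub⟩ := hred
  obtain ⟨c', x', y', hx', hy', hc', hrx', hry', hw'⟩ := E.exists_scaling A p hp hA N w hw
  obtain ⟨ζb, hζb, hTred⟩ := Hecke.exists_T_red A ℓ
  obtain ⟨tx, htx, htx'⟩ := hTred N H x hx
  obtain ⟨ty, hty, hty'⟩ := hTred N H y hy
  have htx0 : E.red A tx ≠ 0 := Hecke.red_T_ne_zero ℓ ζb hrx htx'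
  have hty0 : E.red A ty ≠ 0 := Hecke.red_T_ne_zero ℓ ζb hry hty'
  have hne : ∀ (z : LaurentSeries A) (hz : E.incl A z ∈ modularFunctionFieldBar N),
      E.red A z ≠ 0 → (⟨E.incl A z, hz⟩ : FN N) ≠ 0 := by
    intro z hz hrz h0
    apply hrz
    have h1 : E.incl A z = 0 := congrArg Subtype.val h0
    have h2 : z = 0 := E.incl_injective A (by rw [h1, map_zero])
    rw [h2, map_zero]
  have hmain := Hecke.fn_identity H (hne y hy hry) (hne y' hy' hry') hu' hw' hT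
  have hcc : c ^ a * c' ^ p ≠ 0 := mul_ne_zero (pow_ne_zero _ hc) (pow_ne_zero _ hc')
  have hmain2 := Hecke.series_identity hcc hmain
  rw [← htx, ← hty] at hmain2
  have hmain3 : HahnSeries.C (c ^ (ℓ + 1) / (c ^ a * c' ^ p)) * E.incl A (tx * y ^ a * y' ^ p) =
      E.incl A (x ^ a * x' ^ p * ty) := by
    have e1 : E.incl A (tx * y ^ a * y' ^ p) = E.incl A tx * E.incl A y ^ a * E.incl A y' ^ p := by
      rw [map_mul, map_mul, map_pow, map_pow]
    have e2 : E.incl A (x ^ a * x' ^ p * ty) = E.incl A x ^ a * E.incl A x' ^ p * E.incl A ty := by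
      rw [map_mul, map_mul, map_pow, map_pow]
    rw [e1, e2]
    exact hmain2
  obtain ⟨cb, hcb, hG⟩ := Hecke.exists_unit_of_C_mul A (c ^ (ℓ + 1) / (c ^ a * c' ^ p))
    (tx * y ^ a * y' ^ p) (x ^ a * x' ^ p * ty)
    (by
      rw [map_mul, map_mul, map_pow, map_pow]
      exact mul_ne_zero (mul_ne_zero htx0 (pow_ne_zero _ hry)) (pow_ne_zero _ hry'))
    (by
      rw [map_mul, map_mul, map_pow, map_pow]
      exact mul_ne_zero (mul_ne_zero (pow_ne_zero _ hrx) (pow_ne_zero _ hrx')) hty0)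
    hmain3
  rw [map_mul, map_mul, map_pow, map_pow, map_mul, map_mul, map_pow, map_pow] at hG
  have hℓk : ((ℓ : ℕ) : kA A) ≠ 0 := by
    intro h
    have := (CharP.cast_eq_zero_iff (kA A) p ℓ).mp h
    exact hℓp ((Nat.prime_dvd_prime_iff_eq hp hℓ).mp this).symm
  exact Hecke.isEig_of_coeff ℓ _ (dl ubar)
    (Hecke.coeff_identity p ℓ hℓk ζb hζb hcb hrx hry hrx' hry' htx' hty' hG hub) φ hφ

end Fermat.Agent.S44.F

end
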